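import Mathlib

/-!
# S55 / G / REC2-TOW / FR-LOC (helper963) : an auxiliary prime with prescribed order

For a prime `p`, an integer `q ≥ 2` and `N ≥ 2` there is a prime `ℓ ≠ p`, `ℓ ∤ q`, such that
the multiplicative order of `q` modulo `ℓ` is exactly `p ^ N`
(`ℓ` is a prime factor `≠ p` of `Φ_p(q ^ (p ^ (N - 1)))`, which is `> p` and not divisible by
`p²`).  Elementary, Mathlib only.
-/

set_option autoImplicit false

namespace Fermat.Agent.S55.G.Rec.TOW.H963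

/-- **Zsigmondy-lite, two primes.** -/
theorem exists_prime_orderOf_eq_pow (p q : ℕ) (hp : p.Prime) (hq : 2 ≤ q) (N : ℕ) (hN : 2 ≤ N) :
    ∃ ℓ : ℕ, ℓ.Prime ∧ ℓ ≠ p ∧ ¬ ℓ ∣ q ∧ orderOf ((q : ZMod ℓ)) = p ^ N := by
  obtain ⟨M, rfl⟩ : ∃ M, N = M + 2 := ⟨N - 2, by omega⟩
  haveI : Fact p.Prime := ⟨hp⟩
  have hp2 : 2 ≤ p := hp.two_le
  obtain ⟨z, hz⟩ : ∃ z : ℕ, z = q ^ p ^ M := ⟨_, rfl⟩
  obtain ⟨y, hy⟩ : ∃ y : ℕ, y = z ^ p := ⟨_, rfl⟩
  obtain ⟨A, hA⟩ : ∃ A : ℕ, A = ∑ i ∈ Finset.range p, y ^ i := ⟨_, rfl⟩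
  have hz1 : 1 ≤ z := by rw [hz]; exact Nat.one_le_pow _ _ (by omega)
  have hz2 : 2 ≤ z := by
    rw [hz]
    calc 2 ≤ q := hq
      _ = q ^ 1 := (pow_one q).symm
      _ ≤ q ^ p ^ M := Nat.pow_le_pow_right (by omega) (Nat.one_le_pow _ _ hp.pos)
  have hy2 : 2 ≤ y := by
    rw [hy]
    calc 2 ≤ z := hz2
      _ = z ^ 1 := (pow_one z).symm
      _ ≤ z ^ p := Nat.pow_le_pow_right (by omega) hp.pos
  -- `A > p`
  have hAgt : p < A := by
    have h1 : ∑ i ∈ Finset.range p, 1 < ∑ i ∈ Finset.range p, y ^ i := by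
      refine Finset.sum_lt_sum (fun i _ => Nat.one_le_pow _ _ (by omega)) ⟨1, ?_, ?_⟩
      · exact Finset.mem_range.2 (by omega)
      · rw [pow_one]; omega
    rw [Finset.sum_const, Finset.card_range, smul_eq_mul, mul_one] at h1
    rw [hA]
    exact h1
  -- `p² ∤ A`
  have hnot : ¬ p ^ 2 ∣ A := by
    intro hdvd
    have hpA : (A : ZMod p) = 0 :=
      (ZMod.natCast_eq_zero_iff A p).2 (dvd_trans (dvd_pow_self p two_ne_zero) hdvd)
    have hsum : (∑ i ∈ Finset.range p, (y : ZMod p) ^ i) = (A : ZMod p) := by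
      rw [hA]; push_cast; rfl
    have hy1 : (y : ZMod p) = 1 := by
      have h1 : ((y : ZMod p)) ^ p - 1 = 0 := by
        rw [← geom_sum_mul (y : ZMod p) p, hsum, hpA, zero_mul]
      rw [ZMod.pow_card] at h1
      exact sub_eq_zero.1 h1
    have hz1' : (z : ZMod p) = 1 := by
      have h2 : (y : ZMod p) = (z : ZMod p) ^ p := by rw [hy]; push_cast; rfl
      rw [h2, ZMod.pow_card] at hy1
      exact hy1
    have hzdvd : (p : ℤ) ∣ (z : ℤ) - 1 := by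
      apply (ZMod.intCast_zmod_eq_zero_iff_dvd ((z : ℤ) - 1) p).1
      push_cast
      rw [hz1', sub_self]
    have hydvd : ((p : ℤ) ^ 2) ∣ (y : ℤ) - 1 := by
      have h3 := dvd_sub_pow_of_dvd_sub hzdvd 1
      rw [pow_one, one_pow] at h3
      rw [hy]
      push_cast
      exact h3
    have hAp : ((p : ℤ) ^ 2) ∣ (A : ℤ) - p := by
      have h4 : (A : ℤ) - p = ∑ i ∈ Finset.range p, ((y : ℤ) ^ i - 1) := by
        rw [Finset.sum_sub_distrib, Finset.sum_const, Finset.card_range, hA]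
        push_cast
        simp
      rw [h4]
      refine Finset.dvd_sum fun i _ => dvd_trans hydvd ?_
      have h5 := sub_dvd_pow_sub_pow (y : ℤ) 1 i
      rwa [one_pow] at h5
    have hAd : ((p : ℤ) ^ 2) ∣ (A : ℤ) := by exact_mod_cast hdvd
    have hpd : ((p : ℤ) ^ 2) ∣ (p : ℤ) := by
      have := dvd_sub hAd hAp
      rwa [sub_sub_cancel] at this
    have hpd' : p ^ 2 ∣ p := by exact_mod_cast hpd
    have hle := Nat.le_of_dvd hp.pos hpd'
    nlinarith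
  -- a prime factor `ℓ ≠ p`
  obtain ⟨ℓ, hℓ, hℓA, hℓp⟩ : ∃ ℓ : ℕ, ℓ.Prime ∧ ℓ ∣ A ∧ ℓ ≠ p := by
    by_contra hcon
    push Not at hcon
    have hA0 : A ≠ 0 := by omega
    have hpow := Nat.eq_prime_pow_of_unique_prime_dvd hA0 (fun {d} hd hdA => hcon d hd hdA)
    have he : 2 ≤ A.primeFactorsList.length := by
      by_contra h
      have h1 : A.primeFactorsList.length ≤ 1 := by omega
      have h2 : p ^ A.primeFactorsList.length ≤ p ^ 1 := Nat.pow_le_pow_right hp.pos h1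
      rw [pow_one, ← hpow] at h2
      omega
    apply hnot
    rw [hpow]
    exact pow_dvd_pow p he
  haveI : Fact ℓ.Prime := ⟨hℓ⟩
  have hℓA0 : (A : ZMod ℓ) = 0 := (ZMod.natCast_eq_zero_iff A ℓ).2 hℓA
  have hsumℓ : (∑ i ∈ Finset.range p, (y : ZMod ℓ) ^ i) = (A : ZMod ℓ) := by
    rw [hA]; push_cast; rfl
  have hyq : (y : ZMod ℓ) = (q : ZMod ℓ) ^ p ^ (M + 1) := by
    rw [hy, hz]; push_cast; rw [← pow_mul, ← pow_succ]
  have hfin : (q : ZMod ℓ) ^ p ^ (M + 1 + 1) = 1 := by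
    have h1 : ((y : ZMod ℓ)) ^ p - 1 = 0 := by
      rw [← geom_sum_mul (y : ZMod ℓ) p, hsumℓ, hℓA0, zero_mul]
    rw [pow_succ p (M + 1), pow_mul, ← hyq]
    exact sub_eq_zero.1 h1
  have hnotone : ¬ (q : ZMod ℓ) ^ p ^ (M + 1) = 1 := by
    intro h1
    rw [← hyq] at h1
    have h2 : (A : ZMod ℓ) = (p : ZMod ℓ) := by
      rw [← hsumℓ, h1]
      simp
    rw [hℓA0] at h2
    have h3 : ℓ ∣ p := (ZMod.natCast_eq_zero_iff p ℓ).1 h2.symm
    exact hℓp ((Nat.prime_dvd_prime_iff_eq hℓ hp).1 h3)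
  refine ⟨ℓ, hℓ, hℓp, ?_, orderOf_eq_prime_pow hnotone hfin⟩
  intro hℓq
  have h0 : (q : ZMod ℓ) = 0 := (ZMod.natCast_eq_zero_iff q ℓ).2 hℓq
  rw [h0, zero_pow (pow_ne_zero _ hp.ne_zero)] at hfin
  exact zero_ne_one hfin

end Fermat.Agent.S55.G.Rec.TOW.H963
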