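import Fermat.Agent.S55.G.Rec.Tow.H963.AuxPrime
import Fermat.Agent.S55.G.Rec.SCH174.Main
import Fermat.Agent.S55.G.Rec.H541.LocalStruct
import Fermat.Agent.S55.G.Rec.L4L6H854

/-!
# S55 / G / REC2-TOW / FR-LOC (helper963) : local classes with invariant of exact order `p ^ k`

For ANY `I : LocalInvSystem` (only `inv_unif`, `inv_res`, `inv_injective` are used), any open
`V ≤ G_{ℚ_q}`, any prime `p` (`p = q` allowed) and `k`:

* `exists_class_addOrderOf` : there is `x ∈ Br(K_V) = lBr q V` with `inv x` of exact order `p ^ k`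
  (`x = p^j • (π ∪ δχ)`, `π` a uniformizer of `K_V`, `χ` = the `p`-part of the cyclotomic character
  mod `ℓ` pulled back to `V`, `ℓ` an auxiliary prime such that `q` has order `p ^ N` mod `ℓ`);
* `exists_class_res_zero` : if moreover `V' ≤ V` is open and `p ^ k ∣ [V : V']`, then `x` can be
  chosen with `p ^ k • x = 0`, `inv x` of exact order `p ^ k` and `lRes x = 0` on `V'`.
-/

set_option autoImplicit false
set_option linter.style.haveILetI false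
set_option linter.unusedSectionVars false

noncomputable section

namespace Fermat.Agent.S55.G.Rec.TOW.H963

open groupCohomology Fermat.Agent.S55.G.Rec

local notation "Qb" => AlgebraicClosure ℚ
local notation "GQ" => (AlgebraicClosure ℚ ≃ₐ[ℚ] AlgebraicClosure ℚ)

section Char

variable (q : ℕ) [Fact q.Prime]

local notation "Gq" => (PadicAlgCl q ≃ₐ[ℚ_[q]] PadicAlgCl q)

variable (p ℓ : ℕ) [Fact p.Prime] [Fact ℓ.Prime]

/-- The `p`-part of the cyclotomic character mod `ℓ`, pulled back to `V ≤ G_{ℚ_q}`. -/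
def chiL (V : Subgroup Gq) : ↥V →* Multiplicative (ZMod (H174.ppart p ℓ)) :=
  (H174.chiQ p ℓ).comp (lHom q V)

lemma chiL_apply (V : Subgroup Gq) (τ : ↥V) :
    chiL q p ℓ V τ = H174.chiQ p ℓ (localGaloisToGlobal q (τ : Gq)) := rfl

lemma isLevelConstant₁_chiL (V : Subgroup Gq) : IsLevelConstant₁ (lHom q V) (chiL q p ℓ V) := by
  obtain ⟨F, hF, h⟩ := H174.isLevelConstant₁_chiU p ℓ ⊤
  refine ⟨F, hF, fun g s hs => ?_⟩
  have h1 := h ⟨lHom q V g, Subgroup.mem_top _⟩ ⟨lHom q V s, Subgroup.mem_top _⟩ hs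
  rw [H174.chiU_apply, H174.chiU_apply] at h1
  rw [chiL_apply, chiL_apply]
  have e : localGaloisToGlobal q ((g * s : ↥V) : Gq) =
      lHom q V g * lHom q V s := by
    rw [← map_mul]; rfl
  rw [e]
  exact h1

/-- `chiL` is unramified (`q ∤ ℓ`). -/
lemma chiL_inertial (hqℓ : ¬ q ∣ ℓ) (V : Subgroup Gq) (τ : ↥V)
    (hτ : IsInertial q (τ : Gq)) : chiL q p ℓ V τ = 1 := by
  have hfix := (H854.cycloFrob q ℓ hqℓ).1 (τ : Gq) hτ
  rw [chiL_apply]
  apply H174.chiQ_eq_one_of_fixes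
  intro ζ hζ
  have h1 := H174.acts_conj_loc q ℓ 1 1 (τ : Gq)
    (fun ζ' hζ' => by rw [hfix ζ' hζ', pow_one]) ζ hζ
  rw [pow_one, one_mul, inv_one, mul_one] at h1
  exact h1

/-- The unit `q mod ℓ`. -/
def qbar (hqℓ : q ≠ ℓ) : (ZMod ℓ)ˣ :=
  ZMod.unitOfCoprime q
    ((Nat.coprime_primes (Fact.out : q.Prime) (Fact.out : ℓ.Prime)).2 hqℓ)

lemma coe_qbar (hqℓ : q ≠ ℓ) : ((qbar q ℓ hqℓ : (ZMod ℓ)ˣ) : ZMod ℓ) = (q : ZMod ℓ) :=
  ZMod.coe_unitOfCoprime q _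

/-- The value of the character on `q mod ℓ`, additively. -/
def tq (hqℓ : q ≠ ℓ) : ZMod (H174.ppart p ℓ) :=
  Multiplicative.toAdd (H174.psi p ℓ (qbar q ℓ hqℓ))

theorem addOrderOf_tq (hqℓ : q ≠ ℓ) {N : ℕ} (hN : orderOf (q : ZMod ℓ) = p ^ N) :
    addOrderOf (tq q p ℓ hqℓ) = p ^ N := by
  have h1 : orderOf (qbar q ℓ hqℓ) = p ^ N := by
    rw [← orderOf_units, coe_qbar, hN]
  have h2 := H174.orderOf_psi p ℓ h1
  rw [← h2]
  exact (orderOf_ofAdd_eq_addOrderOf (tq q p ℓ hqℓ)).symm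

/-- A Frobenius element with residue degree `f` is sent to `f • tq`. -/
theorem chiAdd_chiL_frob (hqℓ : q ≠ ℓ) (V : Subgroup Gq) (φ : ↥V) (f : ℕ)
    (hφ : ∀ x : PadicAlgCl q, ‖x‖ ≤ 1 → ‖(φ : Gq) x - x ^ (q ^ f)‖ < 1) :
    chiAdd (chiL q p ℓ V) φ = f • tq q p ℓ hqℓ := by
  have hqℓ' : ¬ q ∣ ℓ := fun h =>
    hqℓ ((Nat.prime_dvd_prime_iff_eq (Fact.out : q.Prime) (Fact.out : ℓ.Prime)).1 h)
  have hact := (H854.cycloFrob q ℓ hqℓ').2 (φ : Gq) f hφ
  have hact' : ∀ ζ : Qb, ζ ^ ℓ = 1 → (localGaloisToGlobal q (φ : Gq)) ζ = ζ ^ (q ^ f) := by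
    intro ζ hζ
    have h1 := H174.acts_conj_loc q ℓ (q ^ f) 1 (φ : Gq) hact ζ hζ
    rw [one_mul, inv_one, mul_one] at h1
    exact h1
  have h1 : ExtCitation.cycloChar ℓ (localGaloisToGlobal q (φ : Gq)) = qbar q ℓ hqℓ ^ f := by
    apply Units.ext
    rw [H174.cycloChar_eq_of_acts ℓ hact', Units.val_pow_eq_pow_val, coe_qbar]
    push_cast
    rfl
  show Multiplicative.toAdd (H174.psi p ℓ
    (ExtCitation.cycloChar ℓ (localGaloisToGlobal q (φ : Gq)))) = _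
  rw [h1, map_pow, toAdd_pow]
  rfl

end Char

section Main

variable (q : ℕ) [Fact q.Prime]

local notation "Gq" => (PadicAlgCl q ≃ₐ[ℚ_[q]] PadicAlgCl q)

local instance fact_zero_lt_one_rat963 : Fact ((0 : ℚ) < 1) := ⟨one_pos⟩

/-- **Local classes of exact order.**  For every open `V ≤ G_{ℚ_q}`, every prime `p` and `k`,
there is a class in `Br(K_V)` whose invariant has exact order `p ^ k`. -/
theorem exists_class_addOrderOf (I : LocalInvSystem) (V : Subgroup Gq) (hV : IsOpenL q V)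
    (p : ℕ) (hp : p.Prime) (k : ℕ) :
    ∃ x : lBr q V, addOrderOf (I.inv q V x) = p ^ k := by
  haveI : Fact p.Prime := ⟨hp⟩
  have hq : q.Prime := Fact.out
  obtain ⟨f, φ, π, hf, hφV, hφ, hπ, -, -⟩ := H541.localStructure q V hV
  obtain ⟨ℓ, hℓ, -, hℓq, hord⟩ :=
    exists_prime_orderOf_eq_pow p q hp hq.two_le (padicValNat p f + k + 2) (by omega)
  haveI : Fact ℓ.Prime := ⟨hℓ⟩
  have hqℓ : q ≠ ℓ := by
    rintro rfl
    exact hℓq dvd_rfl
  have hqℓ' : ¬ q ∣ ℓ := fun h => hqℓ ((Nat.prime_dvd_prime_iff_eq hq hℓ).1 h)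
  have hn0 : H174.ppart p ℓ ≠ 0 := H174.ppart_ne_zero p ℓ
  have hlc := isLevelConstant₁_chiL q p ℓ V
  have hfix : LFixed q V π := fun τ hτ => Units.ext (hπ.1 τ hτ)
  -- the cup cocycle
  obtain ⟨c, hc⟩ : ∃ c : ↥(levelCocycles₂ (lHom q V) (lModOn q V)),
      (c : ↥V × ↥V → lModOn q V) =
        H379.cupChar (H174.ppart p ℓ) (chiAdd (chiL q p ℓ V)) (toLMod q V π) :=
    ⟨⟨_, lcupChar_mem q V (H174.ppart p ℓ) (chiL q p ℓ V) π ⟨hn0, hlc, hfix⟩⟩, rfl⟩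
  have hcup : IsCupChar (toLMod q V π) (chiL q p ℓ V) (c : ↥V × ↥V → lModOn q V) :=
    (isCupChar_iff _ _ _).2 hc
  have hinv := I.inv_unif q V hV (H174.ppart p ℓ) (chiL q p ℓ V)
    (fun τ hτ => chiL_inertial q p ℓ hqℓ' V τ hτ) φ ⟨hφV, f, hf, hφ⟩ π hπ c hcup
  -- the order of the invariant
  have hval : chiAdd (chiL q p ℓ V) ⟨φ, hφV⟩ = f • tq q p ℓ hqℓ :=
    chiAdd_chiL_frob q p ℓ hqℓ V ⟨φ, hφV⟩ f hφ
  obtain ⟨b, hkb, hb⟩ := H174.addOrderOf_nsmul_prime_pow (k := k) hp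
    (addOrderOf_tq q p ℓ hqℓ hord) hf.1.ne' (by omega)
  have hordinv : addOrderOf (I.inv q V (continuousH2π (lHom q V) (lModOn q V) c)) = p ^ b := by
    rw [hinv, ← hb, ← hval]
    have h1 := H174.addOrderOf_val_div (H174.ppart p ℓ) (chiAdd (chiL q p ℓ V) ⟨φ, hφV⟩)
    rw [mul_one] at h1
    exact h1
  refine ⟨p ^ (b - k) • continuousH2π (lHom q V) (lModOn q V) c, ?_⟩
  rw [map_nsmul, addOrderOf_nsmul' _ (pow_ne_zero _ hp.ne_zero), hordinv]
  have h2 : (p ^ b).gcd (p ^ (b - k)) = p ^ (b - k) :=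
    Nat.gcd_eq_right (pow_dvd_pow p (Nat.sub_le b k))
  rw [h2, Nat.pow_div (Nat.sub_le b k) hp.pos]
  congr 1
  omega

/-- **Local classes of exact order, split by a given extension.**  If `V' ≤ V` are open and
`p ^ k` divides `[V : V']`, there is `x ∈ Br(K_V)` with `p ^ k • x = 0`, whose invariant has exact
order `p ^ k`, and which dies in `Br(K_{V'})`. -/
theorem exists_class_res_zero (I : LocalInvSystem) (V V' : Subgroup Gq) (hV : IsOpenL q V)
    (hV' : IsOpenL q V') (h : V' ≤ V) (p : ℕ) (hp : p.Prime) (k : ℕ)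
    (hdvd : p ^ k ∣ V'.relIndex V) :
    ∃ x : lBr q V, p ^ k • x = 0 ∧ (∀ n : ℕ, n • I.inv q V x = 0 → p ^ k ∣ n) ∧
      addOrderOf (I.inv q V x) = p ^ k ∧ lRes q h x = 0 := by
  obtain ⟨x, hx⟩ := exists_class_addOrderOf q I V hV p hp k
  have hkill : p ^ k • I.inv q V x = 0 := by
    rw [← hx]
    exact addOrderOf_nsmul_eq_zero _
  refine ⟨x, ?_, ?_, hx, ?_⟩
  · apply I.inv_injective q V hV
    rw [map_nsmul, hkill, map_zero]
  · intro n hn
    rw [← hx]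
    exact addOrderOf_dvd_of_nsmul_eq_zero hn
  · apply I.inv_injective q V' hV'
    rw [I.inv_res q V V' h hV' x, map_zero]
    obtain ⟨m, hm⟩ := hdvd
    rw [hm, mul_comm, mul_smul, hkill, smul_zero]

end Main

end Fermat.Agent.S55.G.Rec.TOW.H963
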