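import Fermat.Agent.S55.G.Rec.K4H115.CyclicSplit
import Fermat.Agent.S55.Bridge.Krasner
import Fermat.Agent.S55.Bridge.H175.LocalLevel

/-!
# S55 / G / REC2-TOW / FR-LOC (helper963) : local inflation–restriction in degree 2

`V' ≤ V ≤ G_{ℚ_q}`, `V'` open and normal in `V`.  A class `x ∈ Br(K_V) = lBr q V` which dies in
`Br(K_{V'})` is represented by a level cocycle which is INFLATED from `V / V'` with values in the
`V'`-fixed units (`K4H115.Infl₂`): constant modulo `V'` in both arguments, values fixed by `V'`.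
(Inflation–restriction with invariance tracking `K4H115.exists_infl₁_infl₂_sub_dOne`, Hilbert 90
for level-constant cocycles `H844.exists_unit_of_levelCocycle844`, Krasner.)
-/

set_option autoImplicit false
set_option linter.style.haveILetI false
set_option linter.unusedSectionVars false

noncomputable section

namespace Fermat.Agent.S55.G.Rec.TOW.H963

open groupCohomology Fermat.Agent.S55.G.Rec Fermat.Agent.S55.G.Rec.K4H115
  Fermat.Agent.S55.Bridge.H175

local notation "Qb" => AlgebraicClosure ℚ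
local notation "GQ" => (AlgebraicClosure ℚ ≃ₐ[ℚ] AlgebraicClosure ℚ)

variable (q : ℕ) [Fact q.Prime]

local notation "Gq" => (PadicAlgCl q ≃ₐ[ℚ_[q]] PadicAlgCl q)

/-- The action of `V` on `lModOn q V`, in terms of units. -/
lemma repAct_lModOn_smul (V : Subgroup Gq) (g : ↥V) (a : lModOn q V) :
    (letI := H379.repAct (lModOn q V); g • a) =
      Additive.ofMul ((g : Gq) • (Additive.toMul a : (PadicAlgCl q)ˣ)) := rfl

/-- **Hilbert 90** for `(N, S)`, `N ≤ V` any subgroup and `S = V ∩ Gal(ℚ̄_q/F_q)`. -/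
theorem h90_lModOn (V : Subgroup Gq) (N : Subgroup ↥V) (F : IntermediateField ℚ Qb)
    [FiniteDimensional ℚ F] :
    letI := H379.repAct (lModOn q V)
    H90 N (F.fixingSubgroup.comap (lHom q V)) (lModOn q V) := by
  letI := H379.repAct (lModOn q V)
  intro c hc hcr _
  let f : ↥N →* Gq := V.subtype.comp N.subtype
  haveI : FiniteDimensional ℚ_[q] (localLevel q F) := finiteDimensional_localLevel q F
  haveI := finite_quotient_comap_fixingSubgroup (localLevel q F) f
  obtain ⟨β, hβ⟩ := H844.exists_unit_of_levelCocycle844 (H := ↥N) (Ω := PadicAlgCl q)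
    (T := ↥(localLevel q F))
    ((algebraMap (localLevel q F) (PadicAlgCl q) : (localLevel q F) →* PadicAlgCl q))
    ((localLevel q F).fixingSubgroup.comap f)
    (by
      intro g hg
      rw [Subgroup.mem_comap, IntermediateField.mem_fixingSubgroup_iff]
      intro x hx
      exact hg ⟨x, hx⟩)
    (by
      intro g hg θ
      rw [Subgroup.mem_comap, IntermediateField.mem_fixingSubgroup_iff] at hg
      exact hg θ θ.2)
    (fun h => (Additive.toMul (c (h : ↥V)) : (PadicAlgCl q)ˣ))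
    (by
      intro g h
      have := hc g h g.2 h.2
      have h2 := congrArg
        (fun u : lModOn q V => ((Additive.toMul u : (PadicAlgCl q)ˣ) : PadicAlgCl q)) this
      exact h2)
    (by
      intro g s hs
      have hs' : ((s : ↥N) : ↥V) ∈ F.fixingSubgroup.comap (lHom q V) :=
        (mem_fixingSubgroup_localLevel_iff q F _).1 hs
      have := hcr g s g.2 hs'
      exact congrArg Additive.toMul this)
  refine ⟨toLMod q V β⁻¹, fun m hm => ?_⟩
  have h1 : (m : Gq) • β * (Additive.toMul (c m) : (PadicAlgCl q)ˣ) = β := by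
    apply Units.ext
    exact hβ ⟨m, hm⟩
  apply Additive.toMul.injective
  show ((m : Gq) • β⁻¹) / β⁻¹ = (Additive.toMul (c m) : (PadicAlgCl q)ˣ)
  have h2 : (Additive.toMul (c m) : (PadicAlgCl q)ˣ) = ((m : Gq) • β)⁻¹ * β :=
    eq_inv_mul_of_mul_eq h1
  rw [h2, smul_inv', div_eq_mul_inv, inv_inv]

/-- Unpacking `lRes x = 0`. -/
lemma exists_cochain_of_lRes_eq_zero {V V' : Subgroup Gq} (hle : V' ≤ V)
    (c : ↥(levelCocycles₂ (lHom q V) (lModOn q V)))
    (hx : lRes q hle (continuousH2π (lHom q V) (lModOn q V) c) = 0) :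
    ∃ b₀ : ↥V' → lModOn q V, IsLevelConstant₁ (lHom q V') b₀ ∧
      ∀ g h : ↥V', (lModOn q V).ρ (Subgroup.inclusion hle g) (b₀ h) - b₀ (g * h) + b₀ g =
        (c : ↥V × ↥V → lModOn q V) (Subgroup.inclusion hle g, Subgroup.inclusion hle h) := by
  have hx1 : continuousH2π (lHom q V') (lModOn q V')
      (levelCocycles₂Map (rH := lHom q V) (rG := lHom q V') (Subgroup.inclusion hle)
        (fun _ => rfl) (LinearMap.id : lModOn q V →ₗ[ℤ] lModOn q V') (fun _ _ => rfl) c) = 0 := hx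
  have hx2 := (continuousH2π_eq_zero_iff _ _ _).1 hx1
  obtain ⟨b₀, hb₀, hdb₀⟩ := (mem_levelCoboundaries₂_iff _ _ _).1 hx2
  refine ⟨b₀, hb₀, fun g h => ?_⟩
  have := congrFun hdb₀ (g, h)
  rw [d₁₂_hom_apply] at this
  exact this

/-- **Local inflation–restriction.**  A class of `Br(K_V)` which dies in `Br(K_{V'})`
(`V' ≤ V` open, normal in `V`) is represented by a level cocycle inflated from `V / V'`. -/
theorem exists_infl_of_lRes_eq_zero (V V' : Subgroup Gq) (hle : V' ≤ V) (hV' : IsOpenL q V')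
    (hnorm : (V'.subgroupOf V).Normal) (x : lBr q V) (hx : lRes q hle x = 0) :
    ∃ c : ↥(levelCocycles₂ (lHom q V) (lModOn q V)),
      continuousH2π (lHom q V) (lModOn q V) c = x ∧
      (letI := H379.repAct (lModOn q V)
       Infl₂ (V'.subgroupOf V) (c : ↥V × ↥V → lModOn q V)) := by
  classical
  letI := H379.repAct (lModOn q V)
  obtain ⟨c, rfl⟩ := Submodule.mkQ_surjective _ x
  obtain ⟨b₀, hb₀, hdb₀⟩ := exists_cochain_of_lRes_eq_zero q hle c hx
  -- a common finite normal level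
  obtain ⟨F₁, hF₁, h₁⟩ := c.2.2
  obtain ⟨F₂, hF₂, h₂⟩ := hb₀
  obtain ⟨E, hE, hEV'⟩ := hV'
  haveI := hE
  obtain ⟨F₃, hF₃, h₃⟩ := Fermat.Agent.S55.Bridge.exists_global_level_of_local q E
  haveI := hF₁
  haveI := hF₂
  haveI := hF₃
  obtain ⟨F, hFfin, hFn, hFle⟩ := exists_normal_ge (F₁ ⊔ F₂ ⊔ F₃)
  haveI := hFfin
  haveI := hFn
  have hF₁le : F.fixingSubgroup ≤ F₁.fixingSubgroup :=
    IntermediateField.fixingSubgroup_antitone ((le_sup_left.trans le_sup_left).trans hFle)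
  have hF₂le : F.fixingSubgroup ≤ F₂.fixingSubgroup :=
    IntermediateField.fixingSubgroup_antitone ((le_sup_right.trans le_sup_left).trans hFle)
  have hF₃le : F.fixingSubgroup ≤ F₃.fixingSubgroup :=
    IntermediateField.fixingSubgroup_antitone (le_sup_right.trans hFle)
  obtain ⟨S, hS⟩ : ∃ S : Subgroup ↥V, S = F.fixingSubgroup.comap (lHom q V) := ⟨_, rfl⟩
  obtain ⟨N, hN⟩ : ∃ N : Subgroup ↥V, N = V'.subgroupOf V := ⟨_, rfl⟩
  have hSmem : ∀ s : ↥V, s ∈ S → localGaloisToGlobal q (s : Gq) ∈ F.fixingSubgroup := by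
    intro s hs
    rw [hS] at hs
    exact hs
  have hNmem : ∀ g : ↥V, g ∈ N ↔ (g : Gq) ∈ V' := by
    intro g
    rw [hN, Subgroup.mem_subgroupOf]
  have hSn : S.Normal := by
    rw [hS]
    exact (normal_fixingSubgroup F).comap (lHom q V)
  have hNn : N.Normal := by
    rw [hN]
    exact hnorm
  have hSN : S ≤ N := by
    intro s hs
    rw [hNmem]
    exact hEV' (h₃ _ (hF₃le (hSmem s hs)))
  have hcoc : IsCocycle₂ (c : ↥V × ↥V → lModOn q V) :=
    (H379.mem_cocycles₂_iff_isCocycle₂ _ _).1 c.2.1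
  have hcS : ∀ g h s t : ↥V, s ∈ S → t ∈ S →
      (c : ↥V × ↥V → lModOn q V) (g * s, h * t) = (c : ↥V × ↥V → lModOn q V) (g, h) :=
    fun g h s t hs ht => h₁ g h s t (hF₁le (hSmem s hs)) (hF₁le (hSmem t ht))
  have hcS' : Infl₂ S (c : ↥V × ↥V → lModOn q V) := infl₂_of_isCocycle₂ hSn hcoc hcS
  -- the trivialising cochain, extended by zero
  obtain ⟨b, hb_eq⟩ : ∃ b : ↥V → lModOn q V, ∀ (g : ↥V) (h : g ∈ N),
      b g = b₀ ⟨(g : Gq), (hNmem g).1 h⟩ :=
    ⟨fun g => if h : g ∈ N then b₀ ⟨(g : Gq), (hNmem g).1 h⟩ else 0,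
      fun g h => dif_pos h⟩
  have hbr : ∀ m s : ↥V, m ∈ N → s ∈ S → b (m * s) = b m := by
    intro m s hm hs
    have hs' : s ∈ N := hSN hs
    rw [hb_eq m hm, hb_eq (m * s) (mul_mem hm hs')]
    exact h₂ ⟨(m : Gq), (hNmem m).1 hm⟩ ⟨(s : Gq), (hNmem s).1 hs'⟩
      (hF₂le (hSmem s hs))
  have hb : ∀ m m' : ↥V, m ∈ N → m' ∈ N →
      m • b m' - b (m * m') + b m = (c : ↥V × ↥V → lModOn q V) (m, m') := by
    intro m m' hm hm'
    rw [hb_eq m hm, hb_eq m' hm', hb_eq (m * m') (mul_mem hm hm')]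
    exact hdb₀ ⟨(m : Gq), (hNmem m).1 hm⟩ ⟨(m' : Gq), (hNmem m').1 hm'⟩
  have h90 : H90 N S (lModOn q V) := by
    rw [hS]
    exact h90_lModOn q V N F
  obtain ⟨u, huS, hu⟩ := exists_infl₁_of_restrict N S hSn hSN hcoc hcS' b hbr hb
  obtain ⟨w, hwS, hwN⟩ := exists_infl₁_infl₂_sub_dOne N S hNn hSn hSN h90 hcoc hcS' huS hu
  -- the new cocycle
  have hlcw : IsLevelConstant₁ (lHom q V) w :=
    ⟨F, hFfin, fun g s hs => hwS.right g s (by rw [hS]; exact hs)⟩
  have hmem : (c : ↥V × ↥V → lModOn q V) - H379.dOne w ∈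
      levelCocycles₂ (lHom q V) (lModOn q V) := by
    refine ⟨(H379.mem_cocycles₂_iff_isCocycle₂ _ _).2
      (H379.isCocycle₂_sub hcoc (H379.isCocycle₂_dOne w)), F, hFfin, fun g g' s s' hs hs' => ?_⟩
    have hs1 : s ∈ S := by rw [hS]; exact hs
    have hs2 : s' ∈ S := by rw [hS]; exact hs'
    have hI : Infl₂ S ((c : ↥V × ↥V → lModOn q V) - H379.dOne w) := hcS'.sub (hwS.dOne hSn)
    rw [hI.left g (g' * s') s hs1, hI.right g g' s' hs2]
  refine ⟨⟨_, hmem⟩, ?_, ?_⟩
  · symm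
    refine class_eq_of_sub_eq_dOne (lHom q V) (lModOn q V) c _ hmem w hlcw (fun g h => ?_)
    show (c : ↥V × ↥V → lModOn q V) (g, h) -
      ((c : ↥V × ↥V → lModOn q V) (g, h) - H379.dOne w (g, h)) = _
    rw [sub_sub_cancel]
    rfl
  · rw [← hN]
    exact hwN

end Fermat.Agent.S55.G.Rec.TOW.H963
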