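import Fermat.Agent.S55.G.Rec.Tow.H963.LocClass
import Fermat.Agent.S55.G.Rec.Tow.H963.LocInfl
import Fermat.Agent.S55.G.Rec.HP.InflInj

/-!
# S55 / G / REC2-TOW / FR-LOC (helper963) : the LOCAL half of `locClass`, finite-level form

Abstract dictionary (same shape as `HP.mem_coboundaries₂_of_infl`, helper473):
`V ≤ G_{ℚ_q}` open, `ρ : V → D` a surjective homomorphism onto a (finite) group with open kernel,
`B` a `D`-module and `φ : B → ℚ̄_qˣ` an injective `ρ`-equivariant additive map whose image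
contains the `ker ρ`-invariants (think: `D` = decomposition group, `B = M_wˣ`, `φ` = the
embedding of the completion).

* `exists_cocycle_of_infl` : a 2-cocycle of `V` inflated from `V / ker ρ` (`K4H115.Infl₂`) is
  `φ ∘ f ∘ (ρ × ρ)` for a 2-cocycle `f` of `D` with values in `B` (pure algebra);
* `exists_finite_level_class` : **for every prime `p` and `p ^ k ∣ |D|` there is a 2-cocycle `f`
  of `D` in `B` with `p ^ k • [f] = 0` in `H²(D, B)` whose inflation `c = φ ∘ f ∘ (ρ × ρ)` is a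
  level cocycle with `I.inv [c]` of exact order `p ^ k`** (any `I : LocalInvSystem`).
-/

set_option autoImplicit false
set_option linter.style.haveILetI false
set_option linter.unusedSectionVars false

noncomputable section

namespace Fermat.Agent.S55.G.Rec.TOW.H963

open groupCohomology Fermat.Agent.S55.G.Rec Fermat.Agent.S55.G.Rec.K4H115
  Fermat.Agent.S55.Bridge.H175

local notation "Qb" => AlgebraicClosure ℚ
local notation "GQ" => (AlgebraicClosure ℚ ≃ₐ[ℚ] AlgebraicClosure ℚ)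

section Abstract

variable {k Γ D : Type} [CommRing k] [Group Γ] [Group D]

/-- **Descent of an inflated cocycle** along `(ρ, φ)`. -/
theorem exists_cocycle_of_infl (A : Rep.{0} k Γ) (B : Rep.{0} k D) (ρ : Γ →* D)
    (hρ : Function.Surjective ρ) (φ : B.V →+ A.V) (hφinj : Function.Injective φ)
    (hφeq : ∀ (τ : Γ) (y : B.V), φ (B.ρ (ρ τ) y) = A.ρ τ (φ y))
    (hφrange : ∀ a : A.V, (∀ n : Γ, ρ n = 1 → A.ρ n a = a) → ∃ y, φ y = a)
    (c : Γ × Γ → A.V) (hc : c ∈ cocycles₂ A)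
    (hl : ∀ g h n : Γ, ρ n = 1 → c (g * n, h) = c (g, h))
    (hr : ∀ g h n : Γ, ρ n = 1 → c (g, h * n) = c (g, h))
    (hfix : ∀ g h n : Γ, ρ n = 1 → A.ρ n (c (g, h)) = c (g, h)) :
    ∃ f : D × D → B.V, f ∈ cocycles₂ B ∧ ∀ τ τ' : Γ, c (τ, τ') = φ (f (ρ τ, ρ τ')) := by
  classical
  let s : D → Γ := Function.surjInv hρ
  have hs : ∀ x, ρ (s x) = x := Function.surjInv_eq hρ
  have hex : ∀ x x' : D, ∃ y : B.V, φ y = c (s x, s x') :=
    fun x x' => hφrange _ (fun n hn => hfix _ _ n hn)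
  choose f₀ hf₀ using hex
  have hkey : ∀ τ τ' : Γ, c (τ, τ') = φ (f₀ (ρ τ) (ρ τ')) := by
    intro τ τ'
    rw [hf₀]
    have e1 : τ = s (ρ τ) * ((s (ρ τ))⁻¹ * τ) := by group
    have e2 : τ' = s (ρ τ') * ((s (ρ τ'))⁻¹ * τ') := by group
    have h1 : ρ ((s (ρ τ))⁻¹ * τ) = 1 := by simp [hs]
    have h2 : ρ ((s (ρ τ'))⁻¹ * τ') = 1 := by simp [hs]
    conv_lhs => rw [e1, e2]
    rw [hl _ _ _ h1, hr _ _ _ h2]
  refine ⟨fun x => f₀ x.1 x.2, ?_, hkey⟩
  rw [mem_cocycles₂_iff]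
  intro x x' x''
  apply hφinj
  obtain ⟨τ, rfl⟩ := hρ x
  obtain ⟨τ', rfl⟩ := hρ x'
  obtain ⟨τ'', rfl⟩ := hρ x''
  have h := (mem_cocycles₂_iff c).1 hc τ τ' τ''
  simp only [map_add, hφeq, ← map_mul, ← hkey]
  exact h

end Abstract

section Main

variable (q : ℕ) [Fact q.Prime]

local notation "Gq" => (PadicAlgCl q ≃ₐ[ℚ_[q]] PadicAlgCl q)

set_option maxHeartbeats 400000 in
/-- **The local half of `locClass`.**  `V ≤ G_{ℚ_q}` open, `ρ : V → D` surjective with open
kernel, `φ : B → ℚ̄_qˣ` injective, `ρ`-equivariant, with image containing the `ker ρ`-invariants.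
For `p ^ k ∣ |D|` there is a 2-cocycle `f` of `D` with values in `B`, with `p ^ k • [f] = 0`,
whose inflation is a level cocycle `c` on `V` with `I.inv [c]` of exact order `p ^ k`. -/
theorem exists_finite_level_class (I : LocalInvSystem) (V : Subgroup Gq) (hV : IsOpenL q V)
    {D : Type} [Group D] (B : Rep.{0} ℤ D) (ρ : ↥V →* D) (hρ : Function.Surjective ρ)
    (hker : IsOpenL q (ρ.ker.map V.subtype))
    (φ : B.V →+ (lModOn q V).V) (hφinj : Function.Injective φ)
    (hφeq : ∀ (τ : ↥V) (y : B.V), φ (B.ρ (ρ τ) y) = (lModOn q V).ρ τ (φ y))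
    (hφrange : ∀ a : (lModOn q V).V, (∀ n : ↥V, ρ n = 1 → (lModOn q V).ρ n a = a) →
      ∃ y, φ y = a)
    (p : ℕ) (hp : p.Prime) (k : ℕ) (hdvd : p ^ k ∣ Nat.card D) :
    ∃ (f : cocycles₂ B) (c : ↥(levelCocycles₂ (lHom q V) (lModOn q V))),
      (∀ τ τ' : ↥V, (c : ↥V × ↥V → lModOn q V) (τ, τ') =
        φ ((f : D × D → B.V) (ρ τ, ρ τ'))) ∧
      p ^ k • (H2π B).hom f = 0 ∧
      addOrderOf (I.inv q V (continuousH2π (lHom q V) (lModOn q V) c)) = p ^ k ∧
      ∀ n : ℕ, n • I.inv q V (continuousH2π (lHom q V) (lModOn q V) c) = 0 → p ^ k ∣ n := by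
  classical
  letI := H379.repAct (lModOn q V)
  -- the subgroup `V' = ker ρ` inside `G_{ℚ_q}`
  obtain ⟨V', hV'def⟩ : ∃ V' : Subgroup Gq, V' = ρ.ker.map V.subtype := ⟨_, rfl⟩
  have hle : V' ≤ V := by
    rw [hV'def]
    exact Subgroup.map_subtype_le _
  have hV' : IsOpenL q V' := by rw [hV'def]; exact hker
  have hsub : V'.subgroupOf V = ρ.ker := by
    rw [hV'def]
    ext τ
    rw [Subgroup.mem_subgroupOf, Subgroup.mem_map]
    constructor
    · rintro ⟨τ₀, hτ₀, h⟩
      have : τ₀ = τ := Subtype.ext h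
      rwa [← this]
    · intro h
      exact ⟨τ, h, rfl⟩
  have hnorm : (V'.subgroupOf V).Normal := by
    rw [hsub]
    exact MonoidHom.normal_ker ρ
  have hidx : V'.relIndex V = Nat.card D := by
    rw [Subgroup.relIndex, hsub, Subgroup.index_ker, Nat.card_congr
      (Equiv.subtypeUnivEquiv (fun x => MonoidHom.mem_range.2 (hρ x)))]
  -- the absolute class
  obtain ⟨x, hxkill, hxdvd, hxord, hxres⟩ :=
    exists_class_res_zero q I V V' hV hV' hle p hp k (by rw [hidx]; exact hdvd)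
  obtain ⟨c, hcx, hcI⟩ := exists_infl_of_lRes_eq_zero q V V' hle hV' hnorm x hxres
  rw [hsub] at hcI
  -- descent to `D`
  obtain ⟨f, hf, hcf⟩ := exists_cocycle_of_infl (lModOn q V) B ρ hρ φ hφinj hφeq hφrange
    (c : ↥V × ↥V → lModOn q V) c.2.1
    (fun g h n hn => hcI.left g h n (MonoidHom.mem_ker.2 hn))
    (fun g h n hn => hcI.right g h n (MonoidHom.mem_ker.2 hn))
    (fun g h n hn => hcI.fixed g h n (MonoidHom.mem_ker.2 hn))
  refine ⟨⟨f, hf⟩, c, hcf, ?_, by rw [hcx]; exact hxord, by rw [hcx]; exact hxdvd⟩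
  -- torsion at finite level: inflation is injective
  have hzero : continuousH2π (lHom q V) (lModOn q V) (p ^ k • c) = 0 := by
    rw [map_nsmul, hcx, hxkill]
  obtain ⟨b, hb, hdb⟩ := (mem_levelCoboundaries₂_iff _ _ _).1
    ((continuousH2π_eq_zero_iff _ _ _).1 hzero)
  have hdb' : ∀ τ τ' : ↥V, (lModOn q V).ρ τ (b τ') - b (τ * τ') + b τ =
      φ ((p ^ k • f) (ρ τ, ρ τ')) := by
    intro τ τ'
    have h1 := congrFun hdb (τ, τ')
    rw [d₁₂_hom_apply] at h1
    rw [h1]
    show (p ^ k • (c : ↥V × ↥V → lModOn q V)) (τ, τ') = _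
    rw [Pi.smul_apply, Pi.smul_apply, map_nsmul, hcf]
  -- Hilbert 90 on `ker ρ`
  obtain ⟨F₂, hF₂, h₂⟩ := hb
  obtain ⟨E, hE, hEV'⟩ := hV'
  haveI := hE
  obtain ⟨F₃, hF₃, h₃⟩ := Fermat.Agent.S55.Bridge.exists_global_level_of_local q E
  haveI := hF₂
  haveI := hF₃
  obtain ⟨F, hFfin, hFn, hFle⟩ := exists_normal_ge (F₂ ⊔ F₃)
  haveI := hFfin
  haveI := hFn
  have hF₂le : F.fixingSubgroup ≤ F₂.fixingSubgroup :=
    IntermediateField.fixingSubgroup_antitone (le_sup_left.trans hFle)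
  have hF₃le : F.fixingSubgroup ≤ F₃.fixingSubgroup :=
    IntermediateField.fixingSubgroup_antitone (le_sup_right.trans hFle)
  obtain ⟨S, hS⟩ : ∃ S : Subgroup ↥V, S = F.fixingSubgroup.comap (lHom q V) := ⟨_, rfl⟩
  have hSmem : ∀ s : ↥V, s ∈ S → localGaloisToGlobal q (s : Gq) ∈ F.fixingSubgroup := by
    intro s hs
    rw [hS] at hs
    exact hs
  have hSn : S.Normal := by
    rw [hS]
    exact (normal_fixingSubgroup F).comap (lHom q V)
  have hSN : S ≤ ρ.ker := by
    intro s hs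
    rw [← hsub, Subgroup.mem_subgroupOf]
    exact hEV' (h₃ _ (hF₃le (hSmem s hs)))
  obtain ⟨e, he⟩ : ∃ e : (lModOn q V).V, e = φ ((p ^ k • f) (1, 1)) := ⟨_, rfl⟩
  have hne : ∀ n : ↥V, ρ n = 1 → (lModOn q V).ρ n e = e := by
    intro n hn
    rw [he, ← hφeq, hn, map_one]
    rfl
  have hbN : ∀ n m : ↥V, ρ n = 1 → ρ m = 1 →
      (lModOn q V).ρ n (b m) - b (n * m) + b n = e := by
    intro n m hn hm
    rw [hdb' n m, hn, hm, he]
  have hb1 : b 1 = e := by
    have := hbN 1 1 (map_one ρ) (map_one ρ)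
    rw [map_one, mul_one] at this
    simpa using this
  have h90 : H90 ρ.ker S (lModOn q V) := by
    rw [hS]
    exact h90_lModOn q V ρ.ker F
  obtain ⟨α, hα⟩ := h90 (fun n => b n - e)
    (by
      intro n m hn hm
      have h1 := hbN n m (MonoidHom.mem_ker.1 hn) (MonoidHom.mem_ker.1 hm)
      have h2 := hne n (MonoidHom.mem_ker.1 hn)
      show b (n * m) - e = (lModOn q V).ρ n (b m - e) + (b n - e)
      rw [map_sub, h2]
      linear_combination (norm := abel) - h1)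
    (by
      intro n s _ hs
      show b (n * s) - e = b n - e
      rw [h₂ n s (hF₂le (hSmem s hs))])
    (by
      intro n s hn hs
      have hsk : ρ s = 1 := MonoidHom.mem_ker.1 (hSN hs)
      have hnk : ρ n = 1 := MonoidHom.mem_ker.1 hn
      have h1 := hbN s n hsk hnk
      have e1 : s * n = n * (n⁻¹ * s * n) := by group
      have e2 : b (s * n) = b n := by
        rw [e1]
        exact h₂ n (n⁻¹ * s * n)
          (hF₂le (hSmem (n⁻¹ * s * n) (conj_mem_of_normal hSn hs n)))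
      have e3 : b s = e := by
        have := h₂ 1 s (hF₂le (hSmem s hs))
        rw [one_mul] at this
        rw [this, hb1]
      rw [e2, e3] at h1
      show (lModOn q V).ρ s (b n - e) = b n - e
      rw [map_sub, hne s hsk]
      linear_combination (norm := abel) h1)
  have hcob : ((p ^ k • (⟨f, hf⟩ : cocycles₂ B) : cocycles₂ B) : D × D → B.V) ∈
      coboundaries₂ B := by
    refine HP.mem_coboundaries₂_of_infl (lModOn q V) B ρ hρ φ hφinj hφeq hφrange
      (p ^ k • f) (p ^ k • (⟨f, hf⟩ : cocycles₂ B)).2 b hdb' α (fun n hn => ?_)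
    rw [← he]
    exact (hα n (MonoidHom.mem_ker.2 hn)).symm
  rw [← map_nsmul]
  exact (H2π_eq_zero_iff _).2 hcob

end Main

end Fermat.Agent.S55.G.Rec.TOW.H963
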